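/-
TEAM FF19, block S32 [ADD-ON] (architect helper20).  File 1: definitions.

GOAL: frozen S32 (`H.ρ.IsFlatAt p`, `p ∤ N`) from frozen S19 (`J₀(N)[p^k]` is finite flat over `ℤ_(p)`).

ROUTE.  `E` = the concrete Eichler-Shimura module (`Λ = Hom_par(Γ₀(N), ℤ_p)`).
 (TORS)   `Λ / p^n Λ ↪ J₀(N)[p^n]`, Galois equivariant                            (`Stmt_ESTors`)
 (ALG)    `V / I V` is an equivariant quotient of a stable subgroup of `(Λ / p^n Λ)^m` (`Stmt_AlgSubquot`)
 (CLOSE)  `IsFlatMod` passes to finite powers, stable subgroups, equivariant quotients (`Stmt_FlatSubquot`)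
-/
import Fermat.Agent.FF19.Hopf.Interface
import Fermat.Agent.ES.RepInterface
import Fermat.Prelude.Def_ModularCurve_ArithmeticGalois
import Fermat.Prelude.Def_CuspForm_HeckeGaloisRepDatum

set_option autoImplicit false

noncomputable section

namespace Fermat.Agent.FF19.S32

open Fermat.Agent.FF19.Hopf (GQ Qb Rl IsFlatMod)

/-- `act` is an action of `G_ℚ` on `W` by additive maps. -/
structure IsAct (W : Type) [AddCommGroup W] (act : GQ → W → W) : Prop where
  one : ∀ x, act 1 x = x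
  mul : ∀ σ τ x, act (σ * τ) x = act σ (act τ x)
  add : ∀ σ x y, act σ (x + y) = act σ x + act σ y

/-- `J₀(N)[l^k]` (the type of the frozen statement S19). -/
abbrev Jt (N l k : ℕ) : Type := ↥(Submodule.torsionBy ℤ (ModularCurve.JZero N) ((l : ℤ) ^ k))

/-- the Galois action on `J₀(N)[l^k]`. -/
def jact (N l k : ℕ) (σ : GQ) (x : Jt N l k) : Jt N l k :=
  ⟨σ • (x : ModularCurve.JZero N), by
    have hx : ((l : ℤ) ^ k) • (x : ModularCurve.JZero N) = 0 :=
      (Submodule.mem_torsionBy_iff _ _).1 x.2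
    rw [Submodule.mem_torsionBy_iff]
    have h := map_zsmul (DistribSMul.toAddMonoidHom (ModularCurve.JZero N) σ) ((l : ℤ) ^ k)
      (x : ModularCurve.JZero N)
    have h2 : ((l : ℤ) ^ k) • (σ • (x : ModularCurve.JZero N))
        = σ • (((l : ℤ) ^ k) • (x : ModularCurve.JZero N)) := h.symm
    rw [h2, hx]
    exact smul_zero (A := ModularCurve.JZero N) σ⟩

@[simp] lemma coe_jact (N l k : ℕ) (σ : GQ) (x : Jt N l k) :
    ((jact N l k σ x : Jt N l k) : ModularCurve.JZero N) = σ • (x : ModularCurve.JZero N) := rfl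

lemma isAct_jact (N l k : ℕ) : IsAct (Jt N l k) (jact N l k) where
  one x := Subtype.ext (by rw [coe_jact, one_smul])
  mul σ τ x := Subtype.ext (by rw [coe_jact, coe_jact, coe_jact, mul_smul])
  add σ x y := Subtype.ext (by
    rw [coe_jact, Submodule.coe_add, Submodule.coe_add, coe_jact, coe_jact, smul_add])

/-- the frozen statement S19, as a `Prop`. -/
def Stmt_S19 : Prop :=
  ∀ (p : ℕ) [NeZero p] (ℓ : ℕ) [Fact ℓ.Prime] (_ : ¬ ℓ ∣ p) (k : ℕ),
    ∃ (H : Type) (_ : CommRing H) (_ : HopfAlgebra (GaloisRep.ratLocalizedAt ℓ) H),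
      Module.Finite (GaloisRep.ratLocalizedAt ℓ) H ∧ Module.Flat (GaloisRep.ratLocalizedAt ℓ) H ∧
      Coalgebra.IsCocomm (GaloisRep.ratLocalizedAt ℓ) H ∧
      ∃ e : WithConv (H →ₐ[GaloisRep.ratLocalizedAt ℓ] AlgebraicClosure ℚ) ≃
          ↥(Submodule.torsionBy ℤ (ModularCurve.JZero p) ((ℓ : ℤ) ^ k)),
        (∀ f g, e (f * g) = e f + e g) ∧
        ∀ (σ : AlgebraicClosure ℚ ≃ₐ[ℚ] AlgebraicClosure ℚ)
          (f g : WithConv (H →ₐ[GaloisRep.ratLocalizedAt ℓ] AlgebraicClosure ℚ)),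
          (∀ h : H, g h = σ (f h)) →
            ((e g : ModularCurve.JZero p)) = σ • (e f : ModularCurve.JZero p)

/-- S19 in the language of block H. -/
theorem flat_of_S19 (h : Stmt_S19) (N : ℕ) [NeZero N] (l : ℕ) [Fact l.Prime] (hl : ¬ l ∣ N)
    (k : ℕ) : IsFlatMod l (Jt N l k) (jact N l k) := by
  obtain ⟨H, i1, i2, h1, h2, h3, e, he1, he2⟩ := h N l hl k
  exact ⟨H, i1, i2, h1, h2, h3, e, he1, fun σ f g hfg => Subtype.ext (he2 σ f g hfg)⟩

end Fermat.Agent.FF19.S32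

end
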