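/-
TEAM FF19, block S32 [ADD-ON] (architect helper20).  File 2: INTERFACE.

Every `Stmt_xxx` is one work package: prove `theorem stmt_xxx : (deps →) Stmt_xxx` in the file named in the task.
`Top.lean` : `s32_of : Stmt_S19 → Stmt_FlatSubquot → Stmt_AlgSubquot → Stmt_ESTors → (frozen S32)`.
-/
import Fermat.Agent.FF19.S32.Defs

set_option autoImplicit false

noncomputable section

namespace Fermat.Agent.FF19.S32

open AlgebraicCurve
open Fermat.Agent.FF19.Hopf (GQ Qb Rl IsFlatMod)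
open Fermat.Agent.ES.Rep (ESModule)

/-! ## (CLOSE) closure of `IsFlatMod` under subquotients of finite powers -/

/-- **CLOSE**.  [`Hopf.Stmt_Converse` gives an order `H` on `W` (`act σ` is onto and `act σ 0 = 0` by `IsAct`).
By induction on `m` an order on `Fin m → W` with the diagonal action: `m = 0`: the subalgebra `⊥` of `(Fin 0 → W) → Qb`
(all points are equal; `σ` fixes `algebraMap (Rl l) Qb r`); `m + 1`: `Hopf.Stmt_Prod` on `W × (Fin m → W)`, transported with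
`Hopf.Stmt_Sub` along the injective homomorphism `y ↦ (y 0, Fin.tail y)`.  `Hopf.Stmt_Sub` along `Y.subtype`
(action on `Y`: `σ y = ⟨fun i => act σ (y i), _⟩`; onto because `σ⁻¹` also preserves `Y`).
`Hopf.Stmt_Quot` along `f` (`f (σ y) = 0 ↔ f y = 0`: `actZ σ` is injective and additive).  `Z` is finite (image of `Y`);
`Hopf.Stmt_Criterion`.] -/
def Stmt_FlatSubquot : Prop :=
  ∀ l : ℕ, l.Prime → ∀ (W Z : Type) [AddCommGroup W] [AddCommGroup Z]
    (act : GQ → W → W) (actZ : GQ → Z → Z), IsAct W act → IsAct Z actZ → IsFlatMod l W act →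
    ∀ (m : ℕ) (Y : AddSubgroup (Fin m → W)), Finite Y →
      (∀ σ, ∀ y ∈ Y, (fun i => act σ (y i)) ∈ Y) →
    ∀ f : Y →+ Z, Function.Surjective f →
      (∀ σ (y y' : Y), (∀ i, y'.1 i = act σ (y.1 i)) → f y' = actZ σ (f y)) →
      IsFlatMod l Z actZ

/-! ## (ALG) the algebra -/

/-- **ALG** (helper22, report #2721).  `V / I V` is an equivariant quotient of a stable subgroup `Y` of `Λ^m`, and the
quotient map kills `Y ∩ (p^n Λ)^m`. -/
def Stmt_AlgSubquot : Prop :=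
  ∀ (p : ℕ) [Fact p.Prime] (N : ℕ) [NeZero N] (S : Finset ℕ)
    (𝒪 : Type) [CommRing 𝒪] [IsDomain 𝒪] [IsDiscreteValuationRing 𝒪]
    [IsAdicComplete (IsLocalRing.maximalIdeal 𝒪) 𝒪]
    (θ : CuspForm.heckeAlgebra N 2 (↑S : Set ℕ) →+* IsLocalRing.ResidueField 𝒪)
    (T : Type) [CommRing T] [IsLocalRing T] [IsNoetherianRing T]
    [IsAdicComplete (IsLocalRing.maximalIdeal T) T] [Algebra 𝒪 T] [IsLocalHom (algebraMap 𝒪 T)]
    [Module.Finite 𝒪 T] [Module.Free 𝒪 T],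
    p ≠ 2 → (p : 𝒪) ∈ IsLocalRing.maximalIdeal 𝒪 → p ∈ S →
    (∀ q : ℕ, q.Prime → q ∣ N → q ∈ S) →
    ∀ (E : ESModule p N (↑S : Set ℕ)) (H : CuspForm.HeckeGaloisRepDatum N (↑S : Set ℕ) 𝒪 θ T)
      (I : Ideal T), Finite (T ⧸ I) →
    ∃ (n m : ℕ) (Y : AddSubgroup (Fin m → E.Λ)),
      (∀ g, ∀ y ∈ Y, (fun i => E.ρ g (y i)) ∈ Y) ∧
      ∃ f : Y →+ (H.ρ.V ⧸ (I • ⊤ : Submodule T H.ρ.V)), Function.Surjective f ∧
        (∀ g (y y' : Y), (∀ i, y'.1 i = E.ρ g (y.1 i)) → f y' = H.ρ.levelAction I g (f y)) ∧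
        (∀ y : Y, (∀ i, ∃ w, y.1 i = (p : ℤ_[p]) ^ n • w) → f y = 0)

/-! ## (TORS) `Λ / p^n ↪ J₀(N)[p^n]` -/

/-- `z` is the class of the divisor `div(u) / m`. -/
def IsCls {K F : Type} [Field K] [Field F] [Algebra K F] (m : ℕ) (u : F) (z : Pic0 K F) : Prop :=
  ∃ E : Divisor.degZero (K := K) (F := F), z = Pic0.mk E ∧
    ∀ v : Place K F, (m : ℤ) * (E : Divisor K F) v = v.ord u

/-- **CLS** (abstract curves; prelude `Def_AlgebraicCurve_DivisorClassGroup`, `Def_AlgebraicCurve_BaseChangeGalois`).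
(1) existence [`D₀` from `HasPrincipalDivisors.exists_divisor`, `E = D₀.mapRange (· / m)`, `m * degree E = degree D₀ = 0`:
prove `degree (m • E) = m • degree E` and `m • E = D₀` by `Finsupp.ext`];
(2) products [`E + E'`, `Place.ord_mul`]; (3) uniqueness [`m * E v = m * E' v`];
(4) `m`-th powers have class `0` [`E v = ord f` : `E` is principal, `QuotientAddGroup.eq_zero_iff`];
(5) class `0` implies `m`-th power [`E = div g`, `u / g ^ m` has order `0` everywhere, so it is a constant `c = c' ^ m`];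
(6) `m • z = 0` [`m • E = div u`]; (7) semilinear automorphisms [`SemilinearAut.pic0_smul_mk`,
`divisor_smul_apply`, `ord_smul`]. -/
def Stmt_Cls : Prop :=
  ∀ (K F : Type) [Field K] [Field F] [Algebra K F] (m : ℕ), m ≠ 0 →
    (HasPrincipalDivisors K F → ∀ u : F, u ≠ 0 → (∀ v : Place K F, (m : ℤ) ∣ v.ord u) →
      ∃ z : Pic0 K F, IsCls m u z) ∧
    (∀ (u u' : F) (z z' : Pic0 K F), u ≠ 0 → u' ≠ 0 → IsCls m u z → IsCls m u' z' →
      IsCls m (u * u') (z + z')) ∧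
    (∀ (u : F) (z z' : Pic0 K F), IsCls m u z → IsCls m u z' → z = z') ∧
    (∀ (f : F) (z : Pic0 K F), f ≠ 0 → IsCls m (f ^ m) z → z = 0) ∧
    ((∀ x : F, x ≠ 0 → (∀ v : Place K F, v.ord x = 0) → ∃ c : K, algebraMap K F c = x) →
      (∀ c : K, ∃ c' : K, c' ^ m = c) →
      ∀ u : F, u ≠ 0 → IsCls m u (0 : Pic0 K F) → ∃ f : F, f ^ m = u) ∧
    (∀ (u : F) (z : Pic0 K F), u ≠ 0 → IsCls m u z → (m : ℤ) • z = 0) ∧
    (∀ (g : SemilinearAut K F) (u : F) (z : Pic0 K F), IsCls m u z → IsCls m (g • u) (g • z))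

/-- **TORS**.  [`E = ES.Coh.esModule N p D S hNS` with `D` from `S36.Top.exists_finLevelData_kum`;
`f v` = the class of `div(u) / p^n` for any `u` with `Kum N (p^n) u (redP p n v.1)`.] -/
def Stmt_ESTors : Prop :=
  ∀ (p : ℕ) [Fact p.Prime] (N : ℕ) [NeZero N] (S : Finset ℕ),
    (∀ q : ℕ, q.Prime → q ∣ N → q ∈ S) →
    ∃ E : ESModule p N (↑S : Set ℕ), ∀ n : ℕ, ∃ f : E.Λ →+ Jt N p n,
      (∀ σ v, f (E.ρ σ v) = jact N p n σ (f v)) ∧
      (∀ v, f v = 0 → ∃ w, v = (p : ℤ_[p]) ^ n • w) ∧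
      (Set.range f).Finite

end Fermat.Agent.FF19.S32

end
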