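import Fermat.Agent.FF19.S32.AlgMain
import Fermat.Agent.FF19.S32.Interface
import Fermat.Agent.ORD.TR.Assembly
import Fermat.Agent.FD.Main

/-!
# FF19 / S32 : (ALG)  `V / I V` is a subquotient of a power of `Λ`

`E` an Eichler--Shimura module, `H` a Hecke--Galois datum of the same level.  For every ideal `I` of
finite index of `T` the `G_ℚ`-module `H.ρ.V / I` is an equivariant quotient of a stable subgroup `Y`
of a finite power of `E.Λ`, and the quotient map kills `Y ∩ (p ^ n Λ)^m`.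
-/

set_option autoImplicit false

namespace Fermat.Agent.FF19.S32

open TensorProduct
open Fermat.Agent.ORD.TR
open Fermat.Agent.ES.Rep Fermat.Agent.ES.RepGalois Fermat.Agent.ES.S31

local notation "Γℚ" => (AlgebraicClosure ℚ ≃ₐ[ℚ] AlgebraicClosure ℚ)

theorem stmt_AlgSubquot : Stmt_AlgSubquot := by
  intro p _ N _ S 𝒪 _ _ _ _ θ T _ _ _ _ _ _ _ _ hp2 hp𝒪 hpS hNS E H I hI
  have hFD : FD.Stmt_FD := Fermat.Agent.FD.stmt_FD
  have hpT : (p : T) ∈ IsLocalRing.maximalIdeal T := by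
    have := map_nonunit (algebraMap 𝒪 T) _ hp𝒪
    rwa [map_natCast] at this
  obtain ⟨hfin, hinj, -⟩ := stmt_ThetaInj p (CuspForm.heckeAlgebra N 2 (↑S : Set ℕ)) E.H E.Λ E.ι
    E.isBaseChange E.Θ E.Θ_injective E.ΘΛ E.ΘΛ_ι
  let j : ℤ_[p] →+* T := padicToComplete p (IsLocalRing.maximalIdeal T) hpT
  have hpush := stmt_Push stmt_ThetaInj p (CuspForm.heckeAlgebra N 2 (↑S : Set ℕ)) E.H E.Λ E.ι
    E.isBaseChange E.Θ E.Θ_injective E.ΘΛ E.ΘΛ_ι T j H.π hpT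
  have happ := stmt_Approx hFD p N S 𝒪 θ T E hpT hpS hNS H
  have ht : ∀ g : Γℚ, ∃ c : Rp p (CuspForm.heckeAlgebra N 2 (↑S : Set ℕ)),
      thetaHat E.ΘΛ c = tauE E.ρ (eps p) g ∧
      piHat j H.π c = LinearMap.trace T H.ρ.V (H.ρ.ρ g) :=
    fun g => hpush _ _ (fun n => (happ g n).1)
  choose t ht1 ht2 using ht
  have hd : ∀ g : Γℚ, ∃ c : Rp p (CuspForm.heckeAlgebra N 2 (↑S : Set ℕ)),
      thetaHat E.ΘΛ c = ((eps p g : ℤ_[p]ˣ) : ℤ_[p]) • (1 : Module.End ℤ_[p] E.Λ) ∧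
      piHat j H.π c = LinearMap.det (H.ρ.ρ g) :=
    fun g => hpush _ _ (fun n => (happ g n).2)
  let εR : Γℚ →* (Rp p (CuspForm.heckeAlgebra N 2 (↑S : Set ℕ)))ˣ :=
    (Units.map (algebraMap ℤ_[p] (Rp p (CuspForm.heckeAlgebra N 2 (↑S : Set ℕ)))).toMonoidHom).comp
      (eps p)
  have hεR : ∀ g, ((εR g : (Rp p (CuspForm.heckeAlgebra N 2 (↑S : Set ℕ)))ˣ) :
      Rp p (CuspForm.heckeAlgebra N 2 (↑S : Set ℕ))) =
      algebraMap ℤ_[p] _ ((eps p g : ℤ_[p]ˣ) : ℤ_[p]) := fun g => rfl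
  have hεΘ : ∀ g, thetaHat E.ΘΛ (εR g : Rp p (CuspForm.heckeAlgebra N 2 (↑S : Set ℕ)))
      = ((eps p g : ℤ_[p]ˣ) : ℤ_[p]) • (1 : Module.End ℤ_[p] E.Λ) := by
    intro g
    rw [hεR, AlgHom.commutes, Algebra.algebraMap_eq_smul_one]
  have hεPi : ∀ g, piHat j H.π (εR g : Rp p (CuspForm.heckeAlgebra N 2 (↑S : Set ℕ)))
      = LinearMap.det (H.ρ.ρ g) := by
    intro g
    obtain ⟨c, hc1, hc2⟩ := hd g
    have : c = εR g := hinj (hc1.trans (hεΘ g).symm)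
    rw [← this, hc2]
  let W : CHRep εR t (Module.End ℤ_[p] E.Λ) :=
    { φ := (thetaHat E.ΘΛ).toRingHom
      α := E.ρ
      comm := fun r g => (thetaHat_comm E.ΘΛ (E.ρ g) (fun x => E.comm g x) r).symm
      ch := fun g => by
        show E.ρ g + thetaHat E.ΘΛ (εR g : Rp p (CuspForm.heckeAlgebra N 2 (↑S : Set ℕ)))
          * E.ρ g⁻¹ = thetaHat E.ΘΛ (t g)
        rw [hεΘ, ht1, smul_mul_assoc, one_mul]
        rfl }
  have hfree : Module.Free ℤ_[p] E.Λ := Module.Free.of_equiv E.isBaseChange.equiv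
  have hfinΛ : Module.Finite ℤ_[p] E.Λ := Module.Finite.equiv E.isBaseChange.equiv
  obtain ⟨c, hcc, -, -, hceps⟩ := exists_conj_eps
  have hεc : ((εR c : (Rp p (CuspForm.heckeAlgebra N 2 (↑S : Set ℕ)))ˣ) :
      Rp p (CuspForm.heckeAlgebra N 2 (↑S : Set ℕ))) = -1 := by
    rw [hεR, hceps p, Units.val_neg, Units.val_one, map_neg, map_one]
  obtain ⟨e, -, -, hker⟩ := ker_of_data hp2 W hinj hpT H.ρ H.residual_absIrr (piHat j H.π)
    hεPi ht2 c hcc hεc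
  obtain ⟨n, hn⟩ := exists_level_ker W (fun a => AlgHom.commutes (thetaHat E.ΘΛ) a) hpT H.ρ
    (piHat j H.π) hεPi ht2 e hker I
  exact ⟨n, subquot_of_ker W H.ρ (piHat j H.π) hεPi ht2 e I n hn⟩

end Fermat.Agent.FF19.S32
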