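import Mathlib

/-!
# FF19 / S32 : a lifting lemma for the algebraic part
-/

set_option autoImplicit false

namespace Fermat.Agent.FF19.S32

/-- lifting an additive map through the range of another one. -/
theorem exists_range_lift {A B C : Type*} [AddCommGroup A] [AddCommGroup B] [AddCommGroup C]
    (l : A →+ B) (m : A →+ C) (h : l.ker ≤ m.ker) :
    ∃ f : l.range →+ C, ∀ a : A, f ⟨l a, ⟨a, rfl⟩⟩ = m a := by
  refine ⟨(QuotientAddGroup.lift l.ker m h).comp
    (QuotientAddGroup.quotientKerEquivRange l).symm.toAddMonoidHom, fun a => ?_⟩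
  have : (QuotientAddGroup.quotientKerEquivRange l).symm ⟨l a, ⟨a, rfl⟩⟩
      = (a : A ⧸ l.ker) := by
    rw [AddEquiv.symm_apply_eq]
    rfl
  rw [AddMonoidHom.comp_apply]
  show QuotientAddGroup.lift l.ker m h
    ((QuotientAddGroup.quotientKerEquivRange l).symm ⟨l a, ⟨a, rfl⟩⟩) = m a
  rw [this]
  rfl

end Fermat.Agent.FF19.S32
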