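import Fermat.Agent.ORD.TR.CoreV

/-!
# FF19 / S32 : the kernel inclusion

`W` a Cayley--Hamilton representation with a good formal idempotent.  A formal element which
evaluates to `0` has conjugate evaluating to `0`, hence formal trace `0`.  Consequently the kernel
of the evaluation on the `e`-part of a faithful representation on `Λ` is contained in the kernel of
the evaluation on a residually absolutely irreducible `ρ`.
-/

set_option autoImplicit false

namespace Fermat.Agent.FF19.S32

open Fermat.Agent.ORD.TR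

section Abs

variable {R G E : Type*} [CommRing R] [Group G] [Ring E] {ε : G →* Rˣ} {t : G → R}
  {W : CHRep ε t E} {π : Fm R G} {g h : G}

/-- the `Q`-version of `Good.key`. -/
theorem good_keyQ (H : W.Good π g h) :
    W.evs π * W.α h * W.ev π * W.α g * W.evs π = W.φ (r1 ε t π g h) * W.evs π := by
  have h1 := H.sandQ (Fm.mul (Fm.mul (Fm.of h) π) (Fm.of g))
  have h2 : W.φ (Fm.tr t (Fm.mul (Fm.mul (Fm.mul (Fm.of h) π) (Fm.of g)) (Fm.st ε π)))
      = W.φ (r1 ε t π g h) := by
    rw [r1]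
    have e1 : W.φ (Fm.tr t (Fm.mul (Fm.mul (Fm.mul (Fm.of h) π) (Fm.of g)) (Fm.st ε π)))
        = W.φ (Fm.tr t (Fm.mul (Fm.mul (Fm.of h) π) (Fm.mul (Fm.of g) (Fm.st ε π)))) :=
      W.φ_tr_congr (by simp only [CHRep.ev_mul, mul_assoc]) (by simp only [CHRep.evs_mul, mul_assoc])
    have e2 : W.φ (Fm.tr t (Fm.mul (Fm.mul (Fm.mul (Fm.of g) (Fm.st ε π)) (Fm.of h)) π))
        = W.φ (Fm.tr t (Fm.mul (Fm.mul (Fm.of g) (Fm.st ε π)) (Fm.mul (Fm.of h) π))) :=
      W.φ_tr_congr (by simp only [CHRep.ev_mul, mul_assoc]) (by simp only [CHRep.evs_mul, mul_assoc])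
    rw [e1, e2, CHRep.φ_tr_mul_comm]
  rw [h2, CHRep.ev_mul, CHRep.ev_mul, CHRep.ev_of, CHRep.ev_of] at h1
  rw [← h1]
  simp only [mul_assoc]

/-- a scalar killing `P` is zero. -/
theorem good_scalar_P (H : W.Good π g h) (c : R) (hc : W.φ c * W.ev π = 0) : W.φ c = 0 := by
  have hQ : W.φ c * W.evs π = 0 := by
    apply H.cancel
    rw [← mul_assoc, W.φ_comm_φ, mul_assoc, ← good_keyQ H]
    have e : W.φ c * (W.evs π * W.α h * W.ev π * W.α g * W.evs π)
        = W.evs π * W.α h * (W.φ c * W.ev π) * W.α g * W.evs π := by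
      have c1 := W.φ_comm_evs c π
      have c2 := W.comm c h
      calc W.φ c * (W.evs π * W.α h * W.ev π * W.α g * W.evs π)
          = (W.φ c * W.evs π) * W.α h * W.ev π * W.α g * W.evs π := by simp only [mul_assoc]
        _ = W.evs π * (W.φ c * W.α h) * W.ev π * W.α g * W.evs π := by
            rw [c1]; simp only [mul_assoc]
        _ = _ := by rw [c2]; simp only [mul_assoc]
    rw [e, hc]
    simp
  rw [H.split_right (W.φ c), hc, hQ, add_zero]

/-- a scalar killing `Q` is zero. -/
theorem good_scalar_Q (H : W.Good π g h) (c : R) (hc : W.φ c * W.evs π = 0) : W.φ c = 0 := by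
  have hP : W.φ c * W.ev π = 0 := by
    apply H.cancel
    rw [← mul_assoc, W.φ_comm_φ, mul_assoc, ← H.key]
    have e : W.φ c * (W.ev π * W.α g * W.evs π * W.α h * W.ev π)
        = W.ev π * W.α g * (W.φ c * W.evs π) * W.α h * W.ev π := by
      have c1 := W.φ_comm_ev c π
      have c2 := W.comm c g
      calc W.φ c * (W.ev π * W.α g * W.evs π * W.α h * W.ev π)
          = (W.φ c * W.ev π) * W.α g * W.evs π * W.α h * W.ev π := by simp only [mul_assoc]
        _ = W.ev π * (W.φ c * W.α g) * W.evs π * W.α h * W.ev π := by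
            rw [c1]; simp only [mul_assoc]
        _ = _ := by rw [c2]; simp only [mul_assoc]
    rw [e, hc]
    simp
  rw [H.split_right (W.φ c), hP, hc, add_zero]

/-- **the kernel of the evaluation is stable under the involution.** -/
theorem good_tr_eq_zero (H : W.Good π g h) (z : Fm R G) (hz : W.ev z = 0) :
    W.φ (Fm.tr t z) = 0 := by
  -- `s = z^* = φ (tr z)`
  have hs : W.evs z = W.φ (Fm.tr t z) := by
    rw [← W.ev_add_evs, hz, zero_add]
  -- `P s = φ (tr (z π^*))`
  have h1 : W.ev π * W.evs z = W.φ (Fm.tr t (Fm.mul z (Fm.st ε π))) := by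
    rw [← W.ev_add_evs, CHRep.ev_mul, CHRep.evs_mul, hz, zero_mul, zero_add, CHRep.evs_st]
  have h2 : W.φ (Fm.tr t (Fm.mul z (Fm.st ε π))) = 0 := by
    apply good_scalar_Q H
    rw [← h1, hs, mul_assoc, W.φ_comm_evs, ← mul_assoc, H.PQ, zero_mul]
  apply good_scalar_P H
  rw [W.φ_comm_ev, ← hs, h1, h2]

end Abs

end Fermat.Agent.FF19.S32
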