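import Fermat.Agent.FF19.S32.AlgKer

/-!
# FF19 / S32 : the kernel inclusion for the data of `ORD/TR`
-/

set_option autoImplicit false

namespace Fermat.Agent.FF19.S32

open Fermat.Agent.ORD.TR

local notation "Γℚ" => (AlgebraicClosure ℚ ≃ₐ[ℚ] AlgebraicClosure ℚ)

theorem exists_half (p : ℕ) [Fact p.Prime] (hp2 : p ≠ 2) : ∃ u : ℤ_[p], (-1 - 1) * u = 1 := by
  have h2 : IsUnit ((2 : ℕ) : ℤ_[p]) := by
    rw [PadicInt.isUnit_iff, PadicInt.norm_natCast_eq_one_iff]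
    exact (Nat.coprime_primes (Fact.out : p.Prime) Nat.prime_two).mpr hp2
  obtain ⟨u, hu⟩ := h2.exists_right_inv
  refine ⟨-u, ?_⟩
  have : ((2 : ℕ) : ℤ_[p]) = 2 := by norm_num
  rw [this] at hu
  linear_combination hu

/-- **(KER)** a formal element killing the `e`-part of `Λ` kills `V`. -/
theorem ker_of_data {p : ℕ} [Fact p.Prime] (hp2 : p ≠ 2) {R : Type} [CommRing R] [Algebra ℤ_[p] R]
    [Module.Finite ℤ_[p] R] {ε : Γℚ →* Rˣ} {t : Γℚ → R}
    {Λ : Type} [AddCommGroup Λ] [Module ℤ_[p] Λ]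
    (W : CHRep ε t (Module.End ℤ_[p] Λ)) (hinj : Function.Injective W.φ)
    {T : Type} [CommRing T] [IsLocalRing T] (hpT : (p : T) ∈ IsLocalRing.maximalIdeal T)
    (ρ : GaloisRepAdic T) (habs : ρ.residual.IsAbsolutelyIrreducible)
    (Pi : R →+* T)
    (hdet : ∀ g, Pi (ε g : R) = LinearMap.det (ρ.ρ g))
    (htr : ∀ g, Pi (t g) = LinearMap.trace T ρ.V (ρ.ρ g))
    (c : Γℚ) (hcc : c * c = 1) (hεc : (ε c : R) = -1) :
    ∃ e : R, e * e = e ∧ Pi e = 1 ∧
      ∀ z : Fm R Γℚ, W.ev z * W.φ e = 0 → (repV ρ Pi hdet htr).ev z = 0 := by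
  obtain ⟨e, he, hPe, hunit, -⟩ := stmt_Idem p R T Pi hpT
  refine ⟨e, he, hPe, ?_⟩
  obtain ⟨u0, hu0⟩ := exists_half p hp2
  set u' : R := algebraMap ℤ_[p] R u0 with hu'
  have hu : ((ε c : R) - 1) * u' = 1 := by
    rw [hεc, hu', ← map_one (algebraMap ℤ_[p] R), ← map_neg, ← map_sub, ← map_mul, hu0]
  have hcinv : c⁻¹ = c := inv_eq_of_mul_eq_one_right hcc
  have htc : t c = 0 := by
    apply hinj
    rw [← W.ch c, hcinv, hεc, map_neg, map_one, map_zero]
    simp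
  have hsum : (1 + (ε c : R) - t c) = 0 := by rw [hεc, htc]; ring
  set WV := repV ρ Pi hdet htr with hWV
  have hφ : ∀ r, WV.φ r = Pi r • (1 : Module.End T ρ.V) := repV_φ ρ Pi hdet htr
  have hα : ∀ g, WV.α g = ρ.ρ g := fun _ => rfl
  have htrev : ∀ x, LinearMap.trace T ρ.V (WV.ev x) = Pi (Fm.tr t x) :=
    trace_repV_ev ρ Pi hdet htr
  have hPu : (LinearMap.det (ρ.ρ c) - 1) * Pi u' = 1 := by
    rw [← hdet, ← map_one Pi, ← map_sub, ← map_mul, hu, map_one]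
  have hone : LinearMap.trace T ρ.V 1 = 2 := by
    rw [LinearMap.trace_one, ρ.finrank_eq]; norm_num
  have hz0 : LinearMap.trace T ρ.V (ρ.ρ c) - 1 - LinearMap.det (ρ.ρ c) = 0 := by
    rw [← htr, ← hdet, ← map_one Pi, ← map_sub, ← map_sub]
    have : t c - 1 - (ε c : R) = -(1 + (ε c : R) - t c) := by ring
    rw [this, hsum, neg_zero, map_zero]
  have hX0 : LinearMap.trace T ρ.V (WV.ev (piF u' c))
      = 1 + Pi u' * (LinearMap.trace T ρ.V (ρ.ρ c) - 1 - LinearMap.det (ρ.ρ c)) := by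
    rw [piF, CHRep.ev_smul, CHRep.ev_Nf, hφ, hα, smul_mul_assoc, one_mul, map_smul, map_sub, hone,
      smul_eq_mul]
    linear_combination hPu
  have hX : IsUnit (LinearMap.trace T ρ.V (WV.ev (piF u' c))) := by
    rw [hX0, hz0, mul_zero, add_zero]
    exact isUnit_one
  have hY : IsUnit (LinearMap.trace T ρ.V (WV.evs (piF u' c))) := by
    have h1 := congrArg (LinearMap.trace T ρ.V) (WV.ev_add_evs (piF u' c))
    rw [map_add, hφ, map_smul, hone, ← htrev, smul_eq_mul] at h1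
    have h2 : LinearMap.trace T ρ.V (WV.evs (piF u' c))
        = LinearMap.trace T ρ.V (WV.ev (piF u' c)) := by linear_combination h1
    rw [h2]
    exact hX
  obtain ⟨g, h, hgh⟩ := stmt_H3 T ρ habs _ _ hX hY
  have hr : IsUnit (Pi (r1 ε t (piF u' c) g h)) := by
    rw [r1, ← htrev, CHRep.ev_mul, CHRep.ev_mul, CHRep.ev_mul, CHRep.ev_of, CHRep.ev_of,
      CHRep.ev_st, LinearMap.trace_mul_comm, hα, hα]
    simpa only [mul_assoc] using hgh
  obtain ⟨r', hr'⟩ := hunit _ hr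
  -- the `e`-part
  let B : Submodule ℤ_[p] Λ := LinearMap.range (W.φ e)
  have hBφ : ∀ r, ∀ v ∈ B, W.φ r v ∈ B := by
    rintro r _ ⟨w, rfl⟩
    exact ⟨W.φ r w, by rw [← Module.End.mul_apply, ← Module.End.mul_apply, W.φ_comm_φ]⟩
  have hBα : ∀ g, ∀ v ∈ B, W.α g v ∈ B := by
    rintro g _ ⟨w, rfl⟩
    exact ⟨W.α g w, by rw [← Module.End.mul_apply, ← Module.End.mul_apply, W.comm]⟩
  have hBe : ∀ v ∈ B, W.φ e v = v := by
    rintro _ ⟨w, rfl⟩
    rw [← Module.End.mul_apply, ← map_mul, he]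
  let We := W.restr B hBφ hBα
  have hzero' : ∀ c : R, We.φ c = 0 → W.φ (c * e) = 0 := by
    intro c hc
    ext v
    have := congrArg Subtype.val (LinearMap.congr_fun hc ⟨W.φ e v, v, rfl⟩)
    rw [map_mul, Module.End.mul_apply]
    exact this
  have HG : We.Good (piF u' c) g h := by
    refine CHRep.good_piF hu (by rw [hsum, map_zero]) ⟨r', ?_⟩
    ext v
    show W.φ r' (W.φ (r1 ε t (piF u' c) g h) v.1) = v.1
    conv_lhs => rw [← hBe v.1 v.2]
    rw [← Module.End.mul_apply, ← Module.End.mul_apply, ← map_mul, ← map_mul, mul_comm r', hr',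
      hBe v.1 v.2]
  intro z hz
  have hz' : We.ev z = 0 := by
    ext v
    rw [restr_ev_apply, ← hBe v.1 v.2, ← Module.End.mul_apply, hz]
    rfl
  apply stmt_TraceZero T ρ habs
  intro g₂
  have h1 : We.φ (Fm.tr t (Fm.mul z (Fm.of g₂))) = 0 :=
    good_tr_eq_zero HG _ (by rw [CHRep.ev_mul, hz', zero_mul])
  have h2 := hinj ((hzero' _ h1).trans (map_zero W.φ).symm)
  have h3 := congrArg Pi h2
  rw [map_mul, hPe, mul_one, map_zero, ← htrev, CHRep.ev_mul, CHRep.ev_of, hα] at h3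
  exact h3

end Fermat.Agent.FF19.S32
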