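import Fermat.Agent.FF19.S32.AlgSub
import Fermat.Prelude.Def_GaloisRep_Flat

/-!
# FF19 / S32 : `V / I V` is a subquotient of a power of `Λ` (abstract form, main step)
-/

set_option autoImplicit false

namespace Fermat.Agent.FF19.S32

open Fermat.Agent.ORD.TR Fermat.Agent.ES.S31

local notation "Γℚ" => (AlgebraicClosure ℚ ≃ₐ[ℚ] AlgebraicClosure ℚ)

theorem finite_quot_smul_top {T : Type*} [CommRing T] (V : Type*) [AddCommGroup V] [Module T V]
    [Module.Finite T V] (I : Ideal T) [Finite (T ⧸ I)] :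
    Finite (V ⧸ I • (⊤ : Submodule T V)) := by
  obtain ⟨n, s, hs⟩ := Module.Finite.exists_fin (R := T) (M := V)
  -- the map `(T / I)^n → V / I V`
  let F : (Fin n → T) →ₗ[T] (V ⧸ I • (⊤ : Submodule T V)) :=
    (I • (⊤ : Submodule T V)).mkQ ∘ₗ (Fintype.linearCombination T s)
  have hF : Function.Surjective F := by
    refine (Submodule.mkQ_surjective _).comp ?_
    rw [← LinearMap.range_eq_top, Fintype.range_linearCombination, hs]
  have hK : ∀ c c' : Fin n → T, (∀ i, Ideal.Quotient.mk I (c i) = Ideal.Quotient.mk I (c' i)) →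
      F c = F c' := by
    intro c c' h
    rw [← sub_eq_zero, ← map_sub]
    show Submodule.Quotient.mk (Fintype.linearCombination T s (c - c')) = 0
    rw [Submodule.Quotient.mk_eq_zero, Fintype.linearCombination_apply]
    refine Submodule.sum_mem _ fun i _ => Submodule.smul_mem_smul ?_ Submodule.mem_top
    rw [Pi.sub_apply, ← Ideal.Quotient.eq]
    exact h i
  let F' : (Fin n → T ⧸ I) → (V ⧸ I • (⊤ : Submodule T V)) :=
    fun c => F (fun i => Quotient.out (c i))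
  refine Finite.of_surjective F' fun w => ?_
  obtain ⟨c, rfl⟩ := hF w
  refine ⟨fun i => Ideal.Quotient.mk I (c i), hK _ _ fun i => ?_⟩
  exact Quotient.out_eq' (s₁ := Submodule.quotientRel I) (Ideal.Quotient.mk I (c i))

section Data

variable {p : ℕ} [Fact p.Prime] {R : Type} [CommRing R]
  {ε : Γℚ →* Rˣ} {t : Γℚ → R}
  {Λ : Type} [AddCommGroup Λ] [Module ℤ_[p] Λ]

/-- the graph of `ev z * φ e ↦ ρ(z)`. -/
noncomputable def graphG (W : CHRep ε t (Module.End ℤ_[p] Λ))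
    {T : Type} [CommRing T] [IsLocalRing T]
    (ρ : GaloisRepAdic T) (Pi : R →+* T)
    (hdet : ∀ g, Pi (ε g : R) = LinearMap.det (ρ.ρ g))
    (htr : ∀ g, Pi (t g) = LinearMap.trace T ρ.V (ρ.ρ g))
    (e : R) : AddSubgroup (Module.End ℤ_[p] Λ × Module.End T ρ.V) where
  carrier := Set.range fun z : Fm R Γℚ => (W.ev z * W.φ e, (repV ρ Pi hdet htr).ev z)
  add_mem' := by
    rintro _ _ ⟨z, rfl⟩ ⟨z', rfl⟩
    exact ⟨z ++ z', by simp only [CHRep.ev_append, add_mul, Prod.mk_add_mk]⟩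
  zero_mem' := ⟨[], by simp⟩
  neg_mem' := by
    rintro _ ⟨z, rfl⟩
    refine ⟨Fm.smul (-1) z, ?_⟩
    simp only [CHRep.ev_smul, map_neg, map_one, neg_mul, one_mul, Prod.neg_mk]

theorem subquot_of_ker [Module.Finite ℤ_[p] Λ]
    (W : CHRep ε t (Module.End ℤ_[p] Λ))
    {T : Type} [CommRing T] [IsLocalRing T]
    (ρ : GaloisRepAdic T) (Pi : R →+* T)
    (hdet : ∀ g, Pi (ε g : R) = LinearMap.det (ρ.ρ g))
    (htr : ∀ g, Pi (t g) = LinearMap.trace T ρ.V (ρ.ρ g))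
    (e : R) (I : Ideal T) [Finite (T ⧸ I)] (n : ℕ)
    (hn : ∀ z : Fm R Γℚ, DivBy n (W.ev z * W.φ e) →
      ∀ v : ρ.V, (repV ρ Pi hdet htr).ev z v ∈ I • (⊤ : Submodule T ρ.V)) :
    ∃ (m : ℕ) (Y : AddSubgroup (Fin m → Λ)),
      (∀ g, ∀ y ∈ Y, (fun i => W.α g (y i)) ∈ Y) ∧
      ∃ f : Y →+ (ρ.V ⧸ (I • ⊤ : Submodule T ρ.V)), Function.Surjective f ∧
        (∀ g (y y' : Y), (∀ i, y'.1 i = W.α g (y.1 i)) → f y' = ρ.levelAction I g (f y)) ∧
        (∀ y : Y, (∀ i, ∃ w, y.1 i = (p : ℤ_[p]) ^ n • w) → f y = 0) := by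
  classical
  have hfin : Finite (ρ.V ⧸ I • (⊤ : Submodule T ρ.V)) := finite_quot_smul_top ρ.V I
  obtain ⟨k, ⟨eq⟩⟩ := Finite.exists_equiv_fin (ρ.V ⧸ I • (⊤ : Submodule T ρ.V))
  let w : Fin k → ρ.V := fun i => Quotient.out (eq.symm i)
  have hw : ∀ i, (Submodule.Quotient.mk (w i) : ρ.V ⧸ I • (⊤ : Submodule T ρ.V)) = eq.symm i :=
    fun i => Quotient.out_eq' (s₁ := Submodule.quotientRel _) (eq.symm i)
  obtain ⟨h, s, hs⟩ := Module.Finite.exists_fin (R := ℤ_[p]) (M := Λ)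
  set 𝓖 := graphG W ρ Pi hdet htr e with h𝓖
  let lam : (Fin k → 𝓖) →+ (Fin (k * h) → Λ) :=
    AddMonoidHom.mk' (fun x q =>
      ((x (finProdFinEquiv.symm q).1).1.1 (s (finProdFinEquiv.symm q).2)))
      (by
        intro x y
        funext q
        rfl)
  let mu : (Fin k → 𝓖) →+ (ρ.V ⧸ I • (⊤ : Submodule T ρ.V)) :=
    AddMonoidHom.mk' (fun x => ∑ i, Submodule.Quotient.mk ((x i).1.2 (w i)))
      (by
        intro x y
        rw [← Finset.sum_add_distrib]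
        rfl)
  have hlamij : ∀ x i j, lam x (finProdFinEquiv (i, j)) = (x i).1.1 (s j) := by
    intro x i j
    show ((x (finProdFinEquiv.symm (finProdFinEquiv (i, j))).1).1.1
        (s (finProdFinEquiv.symm (finProdFinEquiv (i, j))).2)) = _
    rw [Equiv.symm_apply_apply]
  -- the key vanishing
  have hkill : ∀ x, (∀ q, ∃ u, lam x q = (p : ℤ_[p]) ^ n • u) → mu x = 0 := by
    intro x hx
    show ∑ i, Submodule.Quotient.mk ((x i).1.2 (w i)) = 0
    refine Finset.sum_eq_zero fun i _ => ?_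
    rw [Submodule.Quotient.mk_eq_zero]
    obtain ⟨z, hz⟩ := (x i).2
    have hdiv : DivBy n (x i).1.1 := by
      let P : Submodule ℤ_[p] Λ :=
        LinearMap.range ((p : ℤ_[p]) ^ n • (LinearMap.id : Λ →ₗ[ℤ_[p]] Λ))
      have hle : (⊤ : Submodule ℤ_[p] Λ) ≤ P.comap (x i).1.1 := by
        rw [← hs, Submodule.span_le]
        rintro _ ⟨j, rfl⟩
        obtain ⟨u, hu⟩ := hx (finProdFinEquiv (i, j))
        rw [hlamij] at hu
        exact ⟨u, hu.symm⟩
      intro v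
      obtain ⟨u, hu⟩ := hle (Submodule.mem_top : v ∈ ⊤)
      exact ⟨u, hu.symm⟩
    rw [← hz] at hdiv ⊢
    exact hn z hdiv (w i)
  have hker : lam.ker ≤ mu.ker := by
    intro x hx
    rw [AddMonoidHom.mem_ker] at hx ⊢
    refine hkill x fun q => ⟨0, ?_⟩
    rw [hx, smul_zero]
    rfl
  obtain ⟨f, hf⟩ := exists_range_lift lam mu hker
  -- the action on tuples
  have hact : ∀ (g : Γℚ) (x : 𝓖), (W.α g * x.1.1, ρ.ρ g * x.1.2) ∈ 𝓖 := by
    rintro g ⟨_, z, rfl⟩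
    refine ⟨Fm.mul (Fm.of g) z, ?_⟩
    simp only [CHRep.ev_mul, CHRep.ev_of, mul_assoc]
    rfl
  let ga : Γℚ → (Fin k → 𝓖) → (Fin k → 𝓖) := fun g x i => ⟨_, hact g (x i)⟩
  have hlam : ∀ g x, lam (ga g x) = fun q => W.α g (lam x q) := by
    intro g x
    funext q
    rfl
  have hmu : ∀ g x, mu (ga g x) = ρ.levelAction I g (mu x) := by
    intro g x
    show ∑ i, Submodule.Quotient.mk ((ρ.ρ g * (x i).1.2) (w i))
      = ρ.levelAction I g (∑ i, Submodule.Quotient.mk ((x i).1.2 (w i)))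
    rw [map_sum]
    rfl
  refine ⟨k * h, lam.range, ?_, f, ?_, ?_, ?_⟩
  · rintro g _ ⟨x, rfl⟩
    exact ⟨ga g x, hlam g x⟩
  · intro v
    have hone : ((W.φ e, 1) : Module.End ℤ_[p] Λ × Module.End T ρ.V) ∈ 𝓖 :=
      ⟨Fm.of 1, by simp⟩
    refine ⟨⟨lam (_root_.Pi.single (eq v) ⟨_, hone⟩), ⟨_, rfl⟩⟩, ?_⟩
    rw [hf]
    show ∑ i, Submodule.Quotient.mk
      (((_root_.Pi.single (eq v) (⟨_, hone⟩ : 𝓖) : Fin k → 𝓖) i).1.2 (w i)) = v
    rw [Finset.sum_eq_single (eq v)]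
    · rw [_root_.Pi.single_eq_same]
      show Submodule.Quotient.mk (w (eq v)) = v
      rw [hw, Equiv.symm_apply_apply]
    · intro i _ hi
      rw [_root_.Pi.single_eq_of_ne hi]
      simp
    · intro hi
      exact absurd (Finset.mem_univ _) hi
  · rintro g ⟨_, x, rfl⟩ y' hy
    have e1 : y' = ⟨lam (ga g x), ⟨_, rfl⟩⟩ := by
      apply Subtype.ext
      show y'.1 = lam (ga g x)
      rw [hlam]
      funext i
      exact hy i
    rw [e1, hf, hf, hmu]
  · rintro ⟨_, x, rfl⟩ hy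
    rw [hf]
    exact hkill x hy

end Data

end Fermat.Agent.FF19.S32
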