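import Fermat.Agent.FF19.S32.AlgKer2
import Fermat.Agent.FF19.S32.AlgDefs
import Fermat.Agent.ORD.TR.Push

/-!
# FF19 / S32 : `V / I V` is a subquotient of a power of `Λ / p ^ n Λ` (abstract form)
-/

set_option autoImplicit false

namespace Fermat.Agent.FF19.S32

open Fermat.Agent.ORD.TR Fermat.Agent.ES.S31

local notation "Γℚ" => (AlgebraicClosure ℚ ≃ₐ[ℚ] AlgebraicClosure ℚ)

/-- a power of `p` lies in an ideal of finite index. -/
theorem exists_pow_mem {p : ℕ} {T : Type*} [CommRing T] [IsLocalRing T]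
    (hpT : (p : T) ∈ IsLocalRing.maximalIdeal T) (I : Ideal T) [Finite (T ⧸ I)] :
    ∃ a : ℕ, (p : T) ^ a ∈ I := by
  obtain ⟨a, b, hab, h⟩ := Finite.exists_ne_map_eq_of_infinite
    (fun n : ℕ => (Ideal.Quotient.mk I ((p : T) ^ n)))
  wlog hlt : a < b generalizing a b
  · exact this b a hab.symm h.symm (lt_of_le_of_ne (not_lt.mp hlt) hab.symm)
  refine ⟨a, ?_⟩
  have h1 : (p : T) ^ a - (p : T) ^ b ∈ I := by
    rw [← Ideal.Quotient.eq]; exact h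
  obtain ⟨d, rfl⟩ := Nat.exists_eq_add_of_lt hlt
  have h2 : (p : T) ^ a - (p : T) ^ (a + d + 1) = (p : T) ^ a * (1 + -((p : T) ^ (d + 1))) := by
    ring
  rw [h2] at h1
  have hu : IsUnit (1 + -((p : T) ^ (d + 1))) :=
    isUnit_one_add_of_mem (neg_mem (Ideal.pow_mem_of_mem _ hpT _ (Nat.succ_pos d)))
  exact (Ideal.mul_unit_mem_iff_mem I hu).mp h1

section Data

variable {p : ℕ} [Fact p.Prime] {R : Type} [CommRing R] [Algebra ℤ_[p] R]
  {ε : Γℚ →* Rˣ} {t : Γℚ → R}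
  {Λ : Type} [AddCommGroup Λ] [Module ℤ_[p] Λ]

/-- the `ℤ_p`-module of the `ev z * φ e`. -/
noncomputable def imgE (W : CHRep ε t (Module.End ℤ_[p] Λ))
    (hφalg : ∀ a : ℤ_[p], W.φ (algebraMap ℤ_[p] R a) = algebraMap ℤ_[p] (Module.End ℤ_[p] Λ) a)
    (e : R) : Submodule ℤ_[p] (Module.End ℤ_[p] Λ) where
  carrier := Set.range fun z : Fm R Γℚ => W.ev z * W.φ e
  add_mem' := by
    rintro _ _ ⟨z, rfl⟩ ⟨z', rfl⟩
    exact ⟨z ++ z', by simp only [CHRep.ev_append, add_mul]⟩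
  zero_mem' := ⟨[], by simp⟩
  smul_mem' := by
    rintro c _ ⟨z, rfl⟩
    refine ⟨Fm.smul (algebraMap ℤ_[p] R c) z, ?_⟩
    simp only [CHRep.ev_smul, hφalg]
    rw [mul_assoc, ← Algebra.smul_def]

theorem natCast_pow_mul_end (a : ℕ) (x : Module.End ℤ_[p] Λ) :
    ((p : ℕ) : Module.End ℤ_[p] Λ) ^ a * x = (p : ℤ_[p]) ^ a • x := by
  rw [Algebra.smul_def, map_pow, map_natCast]

/-- **Artin--Rees step.** -/
theorem exists_level_ker [Module.Free ℤ_[p] Λ] [Module.Finite ℤ_[p] Λ]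
    (W : CHRep ε t (Module.End ℤ_[p] Λ))
    (hφalg : ∀ a : ℤ_[p], W.φ (algebraMap ℤ_[p] R a) = algebraMap ℤ_[p] (Module.End ℤ_[p] Λ) a)
    {T : Type} [CommRing T] [IsLocalRing T] (hpT : (p : T) ∈ IsLocalRing.maximalIdeal T)
    (ρ : GaloisRepAdic T) (Pi : R →+* T)
    (hdet : ∀ g, Pi (ε g : R) = LinearMap.det (ρ.ρ g))
    (htr : ∀ g, Pi (t g) = LinearMap.trace T ρ.V (ρ.ρ g))
    (e : R)
    (hker : ∀ z : Fm R Γℚ, W.ev z * W.φ e = 0 → (repV ρ Pi hdet htr).ev z = 0)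
    (I : Ideal T) [Finite (T ⧸ I)] :
    ∃ n : ℕ, ∀ z : Fm R Γℚ, DivBy n (W.ev z * W.φ e) →
      ∀ v : ρ.V, (repV ρ Pi hdet htr).ev z v ∈ I • (⊤ : Submodule T ρ.V) := by
  obtain ⟨a0, ha0⟩ := exists_pow_mem hpT I
  obtain ⟨k0, hk0⟩ := Ideal.exists_pow_inf_eq_pow_smul (Ideal.span {(p : ℤ_[p])})
    (imgE W hφalg e)
  refine ⟨a0 + k0, fun z hz v => ?_⟩
  obtain ⟨y, hy⟩ := Push_exists_eq_smul (a0 + k0) _ hz
  have h1 : W.ev z * W.φ e ∈ (Ideal.span {(p : ℤ_[p])}) ^ (a0 + k0) •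
      (⊤ : Submodule ℤ_[p] (Module.End ℤ_[p] Λ)) ⊓ imgE W hφalg e := by
    refine ⟨?_, ⟨z, rfl⟩⟩
    rw [hy]
    exact Submodule.smul_mem_smul (Ideal.pow_mem_pow (Ideal.mem_span_singleton_self _) _)
      Submodule.mem_top
  rw [hk0 (a0 + k0) (Nat.le_add_left _ _), Nat.add_sub_cancel] at h1
  have h2 : W.ev z * W.φ e ∈ (Ideal.span {(p : ℤ_[p])}) ^ a0 • imgE W hφalg e :=
    Submodule.smul_mono le_rfl inf_le_right h1
  rw [Ideal.span_singleton_pow, Submodule.ideal_span_singleton_smul,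
    Submodule.mem_smul_pointwise_iff_exists] at h2
  obtain ⟨_, ⟨z', rfl⟩, hz'⟩ := h2
  have h3 : W.ev (z ++ Fm.smul (-((p : R) ^ a0)) z') * W.φ e = 0 := by
    rw [CHRep.ev_append, CHRep.ev_smul, add_mul, map_neg, map_pow, map_natCast, neg_mul, neg_mul,
      mul_assoc, natCast_pow_mul_end, hz', add_neg_cancel]
  have h4 := hker _ h3
  rw [CHRep.ev_append, CHRep.ev_smul, repV_φ, map_neg, map_pow, map_natCast, smul_mul_assoc,
    one_mul, neg_smul, add_neg_eq_zero] at h4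
  rw [h4, LinearMap.smul_apply]
  exact Submodule.smul_mem_smul ha0 Submodule.mem_top

end Data

end Fermat.Agent.FF19.S32
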