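/-
TEAM FF19, block S32 (architect helper20).  `Stmt_Cls` (helper79): the class of `div(u) / m` in `Pic0 K F`.
-/
import Fermat.Agent.FF19.S32.Interface

set_option autoImplicit false

noncomputable section

namespace Fermat.Agent.FF19.S32

open AlgebraicCurve

section

variable {K F : Type} [Field K] [Field F] [Algebra K F]

lemma Cls_ord_pow (v : Place K F) (f : F) (m : ℕ) : v.ord (f ^ m) = (m : ℤ) * v.ord f := by
  have := v.ord_zpow f (m : ℤ)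
  rwa [zpow_natCast] at this

lemma Cls_exists {m : ℕ} (hm : m ≠ 0) (hP : HasPrincipalDivisors K F) (u : F) (hu : u ≠ 0)
    (hd : ∀ v : Place K F, (m : ℤ) ∣ v.ord u) : ∃ z : Pic0 K F, IsCls m u z := by
  obtain ⟨D₀, hD₀, hdeg⟩ := hP.exists_divisor u hu
  have hm' : (m : ℤ) ≠ 0 := by exact_mod_cast hm
  let E : Divisor K F := D₀.mapRange (fun a : ℤ => a / (m : ℤ)) (by simp)
  have hE : ∀ v, (m : ℤ) * E v = v.ord u := by
    intro v
    show (m : ℤ) * (D₀.mapRange (fun a : ℤ => a / (m : ℤ)) (by simp)) v = _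
    rw [Finsupp.mapRange_apply, hD₀ v]
    exact Int.mul_ediv_cancel' (hd v)
  have hmE : (m : ℤ) • E = D₀ := by
    ext v
    rw [Finsupp.smul_apply, smul_eq_mul, hE v, hD₀ v]
  have hdegE : Divisor.degree E = 0 := by
    have h1 : Divisor.degree ((m : ℤ) • E) = (m : ℤ) • Divisor.degree E := map_zsmul _ _ _
    rw [hmE, hdeg, smul_eq_mul] at h1
    rcases mul_eq_zero.mp h1.symm with h | h
    · exact absurd h hm'
    · exact h
  exact ⟨Pic0.mk ⟨E, hdegE⟩, ⟨E, hdegE⟩, rfl, hE⟩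

lemma Cls_mul {m : ℕ} (u u' : F) (z z' : Pic0 K F) (hu : u ≠ 0) (hu' : u' ≠ 0)
    (h : IsCls m u z) (h' : IsCls m u' z') : IsCls m (u * u') (z + z') := by
  obtain ⟨E, rfl, hE⟩ := h
  obtain ⟨E', rfl, hE'⟩ := h'
  refine ⟨E + E', rfl, fun v => ?_⟩
  rw [v.ord_mul hu hu', ← hE v, ← hE' v, AddSubgroup.coe_add, Finsupp.add_apply, mul_add]

lemma Cls_unique {m : ℕ} (hm : m ≠ 0) (u : F) (z z' : Pic0 K F)
    (h : IsCls m u z) (h' : IsCls m u z') : z = z' := by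
  obtain ⟨E, rfl, hE⟩ := h
  obtain ⟨E', rfl, hE'⟩ := h'
  have hm' : (m : ℤ) ≠ 0 := by exact_mod_cast hm
  congr 1
  apply Subtype.ext
  ext v
  exact mul_left_cancel₀ hm' ((hE v).trans (hE' v).symm)

lemma Cls_mk_eq_zero (E : Divisor.degZero (K := K) (F := F)) :
    Pic0.mk E = 0 ↔ Divisor.IsPrincipal (E : Divisor K F) := by
  unfold Pic0.mk
  rw [QuotientAddGroup.eq_zero_iff, AddSubgroup.mem_addSubgroupOf]
  exact Iff.rfl

lemma Cls_pow {m : ℕ} (hm : m ≠ 0) (f : F) (z : Pic0 K F) (hf : f ≠ 0)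
    (h : IsCls m (f ^ m) z) : z = 0 := by
  obtain ⟨E, rfl, hE⟩ := h
  have hm' : (m : ℤ) ≠ 0 := by exact_mod_cast hm
  rw [Cls_mk_eq_zero]
  refine ⟨f, hf, fun v => ?_⟩
  have := hE v
  rw [Cls_ord_pow] at this
  exact mul_left_cancel₀ hm' this

lemma Cls_root {m : ℕ}
    (hc : ∀ x : F, x ≠ 0 → (∀ v : Place K F, v.ord x = 0) → ∃ c : K, algebraMap K F c = x)
    (hr : ∀ c : K, ∃ c' : K, c' ^ m = c) (u : F) (hu : u ≠ 0)
    (h : IsCls m u (0 : Pic0 K F)) : ∃ f : F, f ^ m = u := by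
  obtain ⟨E, h0, hE⟩ := h
  obtain ⟨g, hg, hEg⟩ := (Cls_mk_eq_zero E).mp h0.symm
  have hgm : g ^ m ≠ 0 := pow_ne_zero m hg
  obtain ⟨c, hcx⟩ := hc (u * (g ^ m)⁻¹) (mul_ne_zero hu (inv_ne_zero hgm)) (fun v => by
    rw [v.ord_mul hu (inv_ne_zero hgm), v.ord_inv, Cls_ord_pow, ← hE v, hEg v]
    ring)
  obtain ⟨c', rfl⟩ := hr c
  refine ⟨algebraMap K F c' * g, ?_⟩
  rw [mul_pow, ← map_pow, hcx]
  field_simp

lemma Cls_torsion {m : ℕ} (u : F) (z : Pic0 K F) (hu : u ≠ 0) (h : IsCls m u z) :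
    (m : ℤ) • z = 0 := by
  obtain ⟨E, rfl, hE⟩ := h
  have h1 : (m : ℤ) • Pic0.mk E = Pic0.mk ((m : ℤ) • E) := rfl
  rw [h1, Cls_mk_eq_zero]
  refine ⟨u, hu, fun v => ?_⟩
  rw [← hE v, AddSubgroup.coe_zsmul, Finsupp.smul_apply, smul_eq_mul]

lemma Cls_smul {m : ℕ} (g : SemilinearAut K F) (u : F) (z : Pic0 K F) (h : IsCls m u z) :
    IsCls m (g • u) (g • z) := by
  obtain ⟨E, rfl, hE⟩ := h
  refine ⟨SemilinearAut.degZeroSMulHom g E, SemilinearAut.pic0_smul_mk g E, fun w => ?_⟩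
  rw [SemilinearAut.coe_degZeroSMulHom, SemilinearAut.divisor_smul_apply, hE (g⁻¹ • w)]
  have h := SemilinearAut.ord_smul g (g⁻¹ • w) u
  rw [smul_inv_smul] at h
  exact h.symm

end

theorem stmt_Cls : Stmt_Cls := by
  intro K F _ _ _ m hm
  exact ⟨fun hP u hu hd => Cls_exists hm hP u hu hd, Cls_mul, Cls_unique hm, Cls_pow hm,
    Cls_root, Cls_torsion, Cls_smul⟩

end Fermat.Agent.FF19.S32

end
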