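/-
TEAM FF19 -> S32, block S32 (architect helper20).  CLOSURE GLUE (helper79).

`IsFlatMod l W act` (`W` finite) passes to every equivariant quotient `Z` of a stable subgroup `Y` of `W ^ m`.
Inputs: the closure statements of block H (`Hopf/Interface.lean`) as hypotheses.
No additivity / no group-action hypothesis on `act` is needed: only `act σ` onto and `act σ 0 = 0`.
-/
import Fermat.Agent.FF19.Hopf.Interface

set_option autoImplicit false

noncomputable section

namespace Fermat.Agent.FF19.S32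

open Fermat.Agent.FF19.Hopf

/-- the diagonal action on `W ^ m`. -/
def Closure_actPow {W : Type} (act : GQ → W → W) (m : ℕ) : GQ → (Fin m → W) → (Fin m → W) :=
  fun σ y i => act σ (y i)

lemma Closure_actPow_surj {W : Type} (act : GQ → W → W) (hs : ∀ σ, Function.Surjective (act σ))
    (m : ℕ) (σ : GQ) : Function.Surjective (Closure_actPow act m σ) := by
  intro y
  refine ⟨fun i => (hs σ (y i)).choose, ?_⟩
  funext i
  exact (hs σ (y i)).choose_spec

/-- an order on `W` gives an order on `W ^ m`. -/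
theorem Closure_order_pow (hSub : Stmt_Sub) (hProd : Stmt_Prod) (l : ℕ) (W : Type) [AddCommGroup W]
    (act : GQ → W → W) (H : Subalgebra (Rl l) (W → Qb)) (hH : IsOrder l W act H) (m : ℕ) :
    ∃ Hm : Subalgebra (Rl l) ((Fin m → W) → Qb), IsOrder l (Fin m → W) (Closure_actPow act m) Hm := by
  induction m with
  | zero =>
    refine ⟨_, hSub l W (Fin 0 → W) act (Closure_actPow act 0) H 0 ?_
      (Closure_actPow_surj act hH.act_surj 0) ?_ hH⟩
    · intro a b _
      exact Subsingleton.elim a b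
    · intro σ x
      simpa using (hH.act_zero σ).symm
  | succ m ih =>
    obtain ⟨Hm, hHm⟩ := ih
    have hP := hProd l W (Fin m → W) act (Closure_actPow act m) H Hm hH hHm
    let j : (Fin (m + 1) → W) →+ W × (Fin m → W) :=
      { toFun := fun y => (y 0, fun i => y i.succ)
        map_zero' := rfl
        map_add' := fun _ _ => rfl }
    refine ⟨_, hSub l (W × (Fin m → W)) (Fin (m + 1) → W) _ (Closure_actPow act (m + 1)) _ j ?_
      (Closure_actPow_surj act hH.act_surj (m + 1)) ?_ hP⟩
    · intro a b hab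
      have h1 : a 0 = b 0 := congrArg Prod.fst hab
      have h2 : (fun i : Fin m => a i.succ) = fun i : Fin m => b i.succ := congrArg Prod.snd hab
      funext i
      refine Fin.cases h1 (fun i => ?_) i
      exact congrFun h2 i
    · intro σ x
      rfl

/-- **CLOSURE**: an equivariant quotient of a stable subgroup of `W ^ m` is flat if `W` is. -/
theorem flat_subquot (hConv : Stmt_Converse) (hSub : Stmt_Sub) (hQuot : Stmt_Quot)
    (hProd : Stmt_Prod) (hCrit : Stmt_Criterion)
    (l : ℕ) (hl : l.Prime) (W : Type) [AddCommGroup W] [Finite W] (act : GQ → W → W)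
    (hsurj : ∀ σ, Function.Surjective (act σ)) (hzero : ∀ σ, act σ 0 = 0)
    (hW : IsFlatMod l W act)
    (m : ℕ) (Y : AddSubgroup (Fin m → W)) (hY : ∀ σ, ∀ y ∈ Y, (fun i => act σ (y i)) ∈ Y)
    (Z : Type) [AddCommGroup Z] (actZ : GQ → Z → Z) (f : Y →+ Z) (hf : Function.Surjective f)
    (hequiv : ∀ (σ : GQ) (y y2 : Y), (∀ i, y2.1 i = act σ (y.1 i)) → f y2 = actZ σ (f y)) :
    IsFlatMod l Z actZ := by
  obtain ⟨H, hH⟩ := hConv l W act hsurj hzero hW
  obtain ⟨Hm, hHm⟩ := Closure_order_pow hSub hProd l W act H hH m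
  -- the action on `Y`
  let actY : GQ → Y → Y := fun σ y => ⟨fun i => act σ (y.1 i), hY σ y.1 y.2⟩
  have hinj : ∀ σ, Function.Injective (act σ) := fun σ => Finite.injective_iff_surjective.mpr (hsurj σ)
  have hYinj : ∀ σ, Function.Injective (actY σ) := by
    intro σ a b hab
    apply Subtype.ext
    funext i
    have := congrFun (congrArg Subtype.val hab) i
    exact hinj σ this
  have hYsurj : ∀ σ, Function.Surjective (actY σ) := fun σ =>
    Finite.injective_iff_surjective.mp (hYinj σ)
  have hOY : IsOrder l Y actY (Hm.map (pull (Rl l) Qb Y.subtype)) :=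
    hSub l (Fin m → W) Y (Closure_actPow act m) actY Hm Y.subtype Y.subtype_injective hYsurj
      (fun _ _ => rfl) hHm
  have hfe : ∀ σ y, f (actY σ y) = actZ σ (f y) := fun σ y => hequiv σ y (actY σ y) (fun _ => rfl)
  have : Finite Z := Finite.of_surjective f hf
  have hZsurj : ∀ σ, Function.Surjective (actZ σ) := by
    intro σ z
    obtain ⟨y, rfl⟩ := hf z
    obtain ⟨y', rfl⟩ := hYsurj σ y
    exact ⟨f y', (hfe σ y').symm⟩
  have hZinj : ∀ σ, Function.Injective (actZ σ) := fun σ =>
    Finite.injective_iff_surjective.mpr (hZsurj σ)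
  have hZzero : ∀ σ, actZ σ 0 = 0 := by
    intro σ
    have h0 : actY σ 0 = 0 := by
      apply Subtype.ext
      funext i
      exact hzero σ
    have := hfe σ 0
    rw [h0, map_zero] at this
    exact this.symm
  have hOZ : IsOrder l Z actZ ((Hm.map (pull (Rl l) Qb Y.subtype)).comap (pull (Rl l) Qb f)) := by
    refine hQuot l hl Y Z actY actZ _ f hf hfe ?_ hOY
    intro σ y
    rw [hfe]
    constructor
    · intro h
      exact hZinj σ (h.trans (hZzero σ).symm)
    · intro h
      rw [h, hZzero]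
  exact hCrit l hl Z actZ _ hOZ

/-- **CLOSURE, covering form**: `π : Λ →+ W` equivariant (`Λ` = a Tate module, `W = Λ / p ^ n`), `Y` a stable subgroup of
`Λ ^ m`, `f : Y →+ Z` onto, equivariant, and zero on the elements of `Y` all of whose coordinates are killed by `π`. -/
theorem flat_subquot_cover (hConv : Stmt_Converse) (hSub : Stmt_Sub) (hQuot : Stmt_Quot)
    (hProd : Stmt_Prod) (hCrit : Stmt_Criterion)
    (l : ℕ) (hl : l.Prime) (W : Type) [AddCommGroup W] [Finite W] (act : GQ → W → W)
    (hsurj : ∀ σ, Function.Surjective (act σ)) (hzero : ∀ σ, act σ 0 = 0)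
    (hW : IsFlatMod l W act)
    {Λ : Type*} [AddCommGroup Λ] (r : GQ → Λ → Λ) (π : Λ →+ W)
    (hπ : ∀ σ x, π (r σ x) = act σ (π x))
    (m : ℕ) (Y : AddSubgroup (Fin m → Λ)) (hY : ∀ σ, ∀ y ∈ Y, (fun i => r σ (y i)) ∈ Y)
    (Z : Type) [AddCommGroup Z] (actZ : GQ → Z → Z) (f : Y →+ Z) (hf : Function.Surjective f)
    (hequiv : ∀ (σ : GQ) (y y2 : Y), (∀ i, y2.1 i = r σ (y.1 i)) → f y2 = actZ σ (f y))
    (hker : ∀ y : Y, (∀ i, π (y.1 i) = 0) → f y = 0) :
    IsFlatMod l Z actZ := by
  let P : (Fin m → Λ) →+ (Fin m → W) := π.compLeft (Fin m)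
  let g : Y →+ Y.map P := P.addSubgroupMap Y
  have hg : Function.Surjective g := P.addSubgroupMap_surjective Y
  have hgv : ∀ (y : Y) i, (g y).1 i = π (y.1 i) := fun _ _ => rfl
  have hkg : g.ker ≤ f.ker := by
    intro y hy
    rw [AddMonoidHom.mem_ker] at hy ⊢
    apply hker
    intro i
    rw [← hgv, hy]
    rfl
  let f' : Y.map P →+ Z := AddMonoidHom.liftOfSurjective g hg ⟨f, hkg⟩
  have hf' : ∀ y, f' (g y) = f y := fun y =>
    AddMonoidHom.liftOfRightInverse_comp_apply g _ (Function.rightInverse_surjInv hg) ⟨f, hkg⟩ y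
  refine flat_subquot hConv hSub hQuot hProd hCrit l hl W act hsurj hzero hW m (Y.map P) ?_ Z actZ f'
    ?_ ?_
  · rintro σ _ ⟨y, hy, rfl⟩
    refine ⟨fun i => r σ (y i), hY σ y hy, ?_⟩
    funext i
    exact hπ σ (y i)
  · intro z
    obtain ⟨y, rfl⟩ := hf z
    exact ⟨g y, hf' y⟩
  · intro σ y y2 h
    obtain ⟨y, rfl⟩ := hg y
    have h2 : y2 = g ⟨fun i => r σ (y.1 i), hY σ y.1 y.2⟩ := by
      apply Subtype.ext
      funext i
      rw [h i, hgv, hgv, hπ]
    rw [h2, hf', hf']
    exact hequiv σ y _ (fun _ => rfl)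

end Fermat.Agent.FF19.S32

end
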