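/-
TEAM FF19, block S32 [ADD-ON] (architect helper20).  TOP: frozen S32 from S19 + (CLOSE) + (ALG) + (TORS).
-/
import Fermat.Agent.FF19.S32.Interface
import Fermat.Agent.FF19.S32.Closure

set_option autoImplicit false

noncomputable section

namespace Fermat.Agent.FF19.S32

open Fermat.Agent.FF19.Hopf
open Fermat.Agent.ES.Rep (ESModule)

variable {p : ℕ} {N : ℕ} [NeZero N] {S : Finset ℕ}
  {𝒪 : Type} [CommRing 𝒪] [IsDomain 𝒪] [IsDiscreteValuationRing 𝒪]
  [IsAdicComplete (IsLocalRing.maximalIdeal 𝒪) 𝒪]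
  {θ : CuspForm.heckeAlgebra N 2 (↑S : Set ℕ) →+* IsLocalRing.ResidueField 𝒪}
  {T : Type} [CommRing T] [IsLocalRing T] [IsNoetherianRing T]
  [IsAdicComplete (IsLocalRing.maximalIdeal T) T] [Algebra 𝒪 T] [IsLocalHom (algebraMap 𝒪 T)]
  [Module.Finite 𝒪 T] [Module.Free 𝒪 T]

/-- the residue field of `T` is finite. -/
theorem Top_finite_residue [Finite (IsLocalRing.ResidueField 𝒪)]
    (H : CuspForm.HeckeGaloisRepDatum N (↑S : Set ℕ) 𝒪 θ T) :
    Finite (IsLocalRing.ResidueField T) := by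
  have hs : Function.Surjective (IsLocalRing.ResidueField.map (algebraMap 𝒪 T)) := by
    intro x
    obtain ⟨a, ha⟩ := H.residue_surjective x
    exact ⟨IsLocalRing.residue 𝒪 a, by rw [IsLocalRing.ResidueField.map_residue]; exact ha⟩
  exact Finite.of_surjective _ hs

/-- **S32** from S19, the closure properties of block H, (ALG), (TORS) and the finiteness of `J₀(N)[p^n]`. -/
theorem s32_of (h19 : Stmt_S19)
    (hConv : Stmt_Converse) (hSub : Stmt_Sub) (hQuot : Stmt_Quot) (hProd : Stmt_Prod)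
    (hCrit : Stmt_Criterion)
    (hAlg : Stmt_AlgSubquot) (hTors : Stmt_ESTors)
    (hFin : ∀ (N : ℕ) [NeZero N] (l : ℕ), l.Prime → ∀ k : ℕ, Finite (Jt N l k))
    [Finite (IsLocalRing.ResidueField 𝒪)]
    (hp : p.Prime) (hp2 : p ≠ 2) (hp𝒪 : (p : 𝒪) ∈ IsLocalRing.maximalIdeal 𝒪) (hpN : ¬ p ∣ N)
    (hpS : p ∈ S) (hNS : ∀ q : ℕ, q.Prime → q ∣ N → q ∈ S)
    (H : CuspForm.HeckeGaloisRepDatum N (↑S : Set ℕ) 𝒪 θ T) :
    H.ρ.IsFlatAt p := by
  have : Fact p.Prime := ⟨hp⟩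
  refine ⟨Top_finite_residue H, fun I hI => ?_⟩
  obtain ⟨E, hE⟩ := hTors p N S hNS
  obtain ⟨n, m, Y, hY, f, hf, hfe, hfk⟩ := hAlg p N S 𝒪 θ T hp2 hp𝒪 hpS hNS E H I hI
  obtain ⟨π, hπ1, hπ2, -⟩ := hE n
  have : Finite (Jt N p n) := hFin N p hp n
  have hact := isAct_jact N p n
  have hsurj : ∀ σ, Function.Surjective (jact N p n σ) := fun σ x =>
    ⟨jact N p n σ⁻¹ x, by rw [← hact.mul, mul_inv_cancel, hact.one]⟩
  have hzero : ∀ σ, jact N p n σ 0 = 0 := fun σ => by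
    have := hact.add σ 0 0
    rw [add_zero] at this
    exact left_eq_add.mp this
  have key : IsFlatMod p (H.ρ.V ⧸ (I • ⊤ : Submodule T H.ρ.V)) (fun σ => H.ρ.levelAction I σ) :=
    flat_subquot_cover hConv hSub hQuot hProd hCrit p hp (Jt N p n) (jact N p n) hsurj hzero
      (flat_of_S19 h19 N p hpN n) (fun σ => E.ρ σ) π hπ1 m Y hY _ _ f hf hfe
      (fun y hy => hfk y (fun i => hπ2 _ (hy i)))
  exact key

end Fermat.Agent.FF19.S32

end
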