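/-
TEAM FF19, block S32 [ADD-ON] (helper20).  (TORS): `Λ / p^n Λ ↪ J₀(N)[p^n]`, Galois equivariantly, for the concrete
Eichler-Shimura module; finiteness of `J₀(N)[m]`.

`KJ χ z` : `z` is the class of `div(u) / m` for some `u` with `Kum N m u χ`.
-/
import Fermat.Agent.FF19.S32.Interface
import Fermat.Agent.S36.Top.Act
import Fermat.Agent.ES.Mid.All
import Fermat.Agent.ES.ClaimKFull
import Fermat.Agent.ES.Coh.Assemble
import Fermat.Agent.RED.G1G5
import Fermat.Agent.S24.DegreeBound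
import Fermat.Agent.S18.Const

set_option autoImplicit false
set_option synthInstance.maxHeartbeats 400000
set_option maxHeartbeats 1000000

noncomputable section

namespace Fermat.Agent.FF19.S32

open AlgebraicCurve ModularCurve CongruenceSubgroup IntermediateField
open scoped MatrixGroups
open Fermat.Agent.S24 (Qbar FF jF)
open Fermat.Agent.ES.Mid (gal IsDiv IsPE Kum)
open Fermat.Agent.ES.Coh (FinLevelData Lam redP rho esModule)

/-- the relation between characters and divisor classes. -/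
def KJ (N m : ℕ) [NeZero N] [NeZero m] (χ : Additive (Gamma0 N) →+ ZMod m) (z : JZero N) : Prop :=
  ∃ u : FF N, Kum N m u χ ∧ IsCls (K := Qbar) (F := FF N) m u z

section

variable (hC : Stmt_Cls) (N m : ℕ) [NeZero N] [NeZero m]

theorem Tors_hasPD : HasPrincipalDivisors Qbar (FF N) :=
  RED.stmt_G1 Qbar (FF N) (jF N) (Fermat.Agent.S24.DegBd.transcendental_jF N)
    (Fermat.Agent.S24.finrank_FF_le N).1

theorem Tors_const (x : FF N) (hx : x ≠ 0) (h : ∀ v : Place Qbar (FF N), v.ord x = 0) :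
    ∃ c : Qbar, algebraMap Qbar (FF N) c = x := by
  have hfd : FiniteDimensional Qbar⟮jF N⟯ (FF N) := (Fermat.Agent.S24.finrank_FF_le N).1
  obtain ⟨c, hc⟩ := Fermat.Agent.S18G.const_of_ord_nonneg (jF N)
    (Fermat.Agent.S24.DegBd.transcendental_jF N) x hx (fun v => (h v).ge)
  exact ⟨c, hc.symm⟩

theorem Tors_root (c : Qbar) : ∃ c' : Qbar, c' ^ m = c :=
  IsAlgClosed.exists_pow_nat_eq c (Nat.pos_of_ne_zero (NeZero.ne m))

variable {N m}

theorem KJ.ne_zero {χ : Additive (Gamma0 N) →+ ZMod m} (hχ : IsPE χ) {u : FF N}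
    (hu : Kum N m u χ) : u ≠ 0 :=
  (Fermat.Agent.ES.Mid.ALL.divOfKum N m u χ hu hχ).1

include hC in
theorem KJ.total {χ : Additive (Gamma0 N) →+ ZMod m} (hχ : IsPE χ) : ∃ z, KJ N m χ z := by
  obtain ⟨u, hu⟩ := Fermat.Agent.ES.Mid.ALL.kumSurj N m χ hχ
  obtain ⟨h0, hd⟩ := Fermat.Agent.ES.Mid.ALL.divOfKum N m u χ hu hχ
  obtain ⟨z, hz⟩ := (hC Qbar (FF N) m (NeZero.ne m)).1 (Tors_hasPD N) u h0 hd
  exact ⟨z, u, hu, hz⟩

include hC in
theorem KJ.add {χ χ' : Additive (Gamma0 N) →+ ZMod m} (hχ : IsPE χ) (hχ' : IsPE χ')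
    {z z' : JZero N} (h : KJ N m χ z) (h' : KJ N m χ' z') : KJ N m (χ + χ') (z + z') := by
  obtain ⟨u, hu, hz⟩ := h
  obtain ⟨u', hu', hz'⟩ := h'
  exact ⟨u * u', Fermat.Agent.ES.Mid.kumMul N m u u' χ χ' hu hu',
    (hC Qbar (FF N) m (NeZero.ne m)).2.1 u u' z z' (KJ.ne_zero hχ hu) (KJ.ne_zero hχ' hu') hz hz'⟩

include hC in
theorem KJ.unique {χ : Additive (Gamma0 N) →+ ZMod m} (hχ : IsPE χ)
    {z z' : JZero N} (h : KJ N m χ z) (h' : KJ N m χ z') : z = z' := by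
  obtain ⟨u, hu, hz⟩ := h
  obtain ⟨u', hu', hz'⟩ := h'
  have h0 := KJ.ne_zero hχ hu
  have h0' := KJ.ne_zero hχ hu'
  have hk : Kum N m (u * u'⁻¹) 0 := by
    have := Fermat.Agent.ES.Mid.kumMul N m u u'⁻¹ χ (-χ) hu
      (Fermat.Agent.ES.Mid.kumInv N m u' χ hu')
    rwa [add_neg_cancel] at this
  obtain ⟨f, hf⟩ := Fermat.Agent.ES.Mid.ALL.kumKer N m _ hk
  have hf0 : f ≠ 0 := by
    rintro rfl
    rw [zero_pow (NeZero.ne m)] at hf
    exact mul_ne_zero h0 (inv_ne_zero h0') hf.symm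
  have hfu : f ^ m * u' = u := by
    rw [hf, mul_assoc, inv_mul_cancel₀ h0', mul_one]
  obtain ⟨c1, c2, c3, c4, -⟩ := hC Qbar (FF N) m (NeZero.ne m)
  obtain ⟨z0, hz0⟩ := c1 (Tors_hasPD N) (f ^ m) (pow_ne_zero m hf0) (fun v => by
    have := v.ord_zpow f (m : ℤ)
    rw [zpow_natCast] at this
    exact ⟨_, this⟩)
  have hz00 : z0 = 0 := c4 f z0 hf0 hz0
  have h2 := c2 (f ^ m) u' z0 z' (pow_ne_zero m hf0) h0' hz0 hz'
  rw [hfu, hz00, zero_add] at h2
  exact c3 u z z' hz h2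

include hC in
theorem KJ.inj {χ : Additive (Gamma0 N) →+ ZMod m} (hχ : IsPE χ) (h : KJ N m χ 0) : χ = 0 := by
  obtain ⟨u, hu, hz⟩ := h
  have h0 := KJ.ne_zero hχ hu
  obtain ⟨f, hf⟩ := (hC Qbar (FF N) m (NeZero.ne m)).2.2.2.2.1 (Tors_const N) (Tors_root m) u h0 hz
  have hf0 : f ≠ 0 := by
    rintro rfl
    rw [zero_pow (NeZero.ne m)] at hf
    exact h0 hf.symm
  have := Fermat.Agent.ES.Mid.kumPow N m f hf0
  rw [hf] at this
  exact Fermat.Agent.ES.Mid.kumUnique N m u χ 0 hu this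

include hC in
theorem KJ.tors {χ : Additive (Gamma0 N) →+ ZMod m} (hχ : IsPE χ) {z : JZero N}
    (h : KJ N m χ z) : (m : ℤ) • z = 0 := by
  obtain ⟨u, hu, hz⟩ := h
  exact (hC Qbar (FF N) m (NeZero.ne m)).2.2.2.2.2.1 u z (KJ.ne_zero hχ hu) hz

include hC in
theorem KJ.smul (D : FinLevelData N)
    (hD : ∀ (m : ℕ) [NeZero m] (σ : Fermat.Agent.ES.Mid.GQ) (χ : Additive (Gamma0 N) →+ ZMod m),
      IsPE χ → ∀ u : FF N, Kum N m u χ → Kum N m (gal N σ u) (D.act m σ χ))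
    {χ : Additive (Gamma0 N) →+ ZMod m} (hχ : IsPE χ) {z : JZero N}
    (h : KJ N m χ z) (σ : Fermat.Agent.ES.Mid.GQ) : KJ N m (D.act m σ χ) (σ • z) := by
  obtain ⟨u, hu, hz⟩ := h
  exact ⟨gal N σ u, hD m σ χ hχ u hu,
    (hC Qbar (FF N) m (NeZero.ne m)).2.2.2.2.2.2 (arithmeticGalois (modularFunctionFieldFull N) σ) u z hz⟩

theorem KJ.surj {z : JZero N} (hz : (m : ℤ) • z = 0) :
    ∃ χ : Additive (Gamma0 N) →+ ZMod m, IsPE χ ∧ KJ N m χ z := by
  obtain ⟨E, rfl⟩ := Pic0.mk_surjective z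
  have h1 : Pic0.mk ((m : ℤ) • E) = 0 := hz
  have h2 : ((m : ℤ) • E) ∈ (Divisor.principal (K := Qbar) (F := FF N)).addSubgroupOf
      (Divisor.degZero (K := Qbar) (F := FF N)) := (QuotientAddGroup.eq_zero_iff _).1 h1
  obtain ⟨u, hu0, hu⟩ := h2
  have hu' : ∀ v : Place Qbar (FF N), (m : ℤ) * (E : Divisor Qbar (FF N)) v = v.ord u := by
    intro v
    rw [← hu v]
    simp
  obtain ⟨χ, hχ, hk⟩ := Fermat.Agent.ES.Mid.ALL.kumOfDiv N m u ⟨hu0, fun v => ⟨_, (hu' v).symm⟩⟩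
  exact ⟨χ, hχ, u, hk, E, rfl, hu'⟩

end


/-- **`J₀(N)[l^k]` is finite.** -/
theorem jt_finite (hC : Stmt_Cls) (N : ℕ) [NeZero N] (l : ℕ) (hl : l.Prime) (k : ℕ) :
    Finite (Jt N l k) := by
  have : NeZero (l ^ k) := ⟨pow_ne_zero k hl.ne_zero⟩
  have hfin : Finite (Additive (Gamma0 N) →+ ZMod (l ^ k)) :=
    Fermat.Agent.ES.Mid.LM.homFinite N (l ^ k)
  have hex : ∀ z : Jt N l k, ∃ χ : Additive (Gamma0 N) →+ ZMod (l ^ k),
      IsPE χ ∧ KJ N (l ^ k) χ (z : JZero N) := by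
    intro z
    apply KJ.surj
    have := (Submodule.mem_torsionBy_iff _ _).1 z.2
    rw [Nat.cast_pow]
    exact this
  choose c hc1 hc2 using hex
  refine Finite.of_injective c ?_
  intro z z' h
  apply Subtype.ext
  have h2 := hc2 z'
  rw [← h] at h2
  exact KJ.unique hC (hc1 z) (hc2 z) h2

section

variable {N : ℕ} [NeZero N] (p : ℕ) [hp : Fact p.Prime]

/-- `redP p n v = 0` implies `v ∈ p^n Λ`. -/
theorem Tors_div (n : ℕ) (v : Lam N p) (h1 : redP p n v.1 = 0) :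
    ∃ w : Lam N p, v = (p : ℤ_[p]) ^ n • w := by
  obtain ⟨a, ha⟩ := (Fermat.Agent.ES.Coh.parEquiv N ℤ_[p] ℤ_[p]).surjective v
  have h2 : ∀ i, ∃ d : ℤ_[p], a i = (p : ℤ_[p]) ^ n * d := fun i => by
    classical
    apply Fermat.Agent.ES.Coh.exists_eq_pow_smul_of_redP_eq_zero
    obtain ⟨γ, hγ⟩ := Fermat.Agent.ES.Coh.univ_surjective N (Pi.single i 1)
    have h3 : v.1 γ = a i := by
      rw [← ha, Fermat.Agent.ES.Coh.parEquiv_apply, Fermat.Agent.ES.Coh.mkHom_apply, hγ]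
      simp [Pi.single_apply, ite_smul]
    rw [← h3, ← Fermat.Agent.ES.Coh.redP_apply, h1]
    rfl
  choose d hd using h2
  refine ⟨Fermat.Agent.ES.Coh.parEquiv N ℤ_[p] ℤ_[p] d, ?_⟩
  rw [← ha, ← map_smul]
  congr 1
  funext i
  rw [hd i]
  rfl

end

/-- **(TORS)**. -/
theorem stmt_ESTors (hC : Stmt_Cls) : Stmt_ESTors := by
  intro p _ N _ S hNS
  obtain ⟨D, hD⟩ := Fermat.Agent.S36.Top.exists_finLevelData_kum
    Fermat.Agent.ES.ClaimKFull.claimK N
  refine ⟨esModule N p D (↑S : Set ℕ) hNS, fun n => ?_⟩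
  have hpe : ∀ v : Lam N p, IsPE (redP p n v.1) := fun v =>
    Fermat.Agent.ES.Coh.isPE_redP p v n
  have hex : ∀ v : Lam N p, ∃ z : JZero N, KJ N (p ^ n) (redP p n v.1) z := fun v =>
    KJ.total hC (hpe v)
  choose F hF using hex
  have hFt : ∀ v, F v ∈ Submodule.torsionBy ℤ (JZero N) ((p : ℤ) ^ n) := by
    intro v
    rw [Submodule.mem_torsionBy_iff]
    have := KJ.tors hC (hpe v) (hF v)
    rwa [Nat.cast_pow] at this
  have hadd : ∀ v w : Lam N p, F (v + w) = F v + F w := by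
    intro v w
    have h1 := KJ.add hC (hpe v) (hpe w) (hF v) (hF w)
    rw [← Fermat.Agent.ES.Coh.redP_add] at h1
    exact KJ.unique hC (hpe (v + w)) (hF (v + w)) h1
  let f : Lam N p →+ Jt N p n :=
    AddMonoidHom.mk' (fun v => ⟨F v, hFt v⟩) (fun v w => Subtype.ext (hadd v w))
  refine ⟨f, ?_, ?_, ?_⟩
  · intro σ (v : Lam N p)
    apply Subtype.ext
    show F (rho D p σ v) = σ • F v
    have h1 := KJ.smul hC D hD (hpe v) (hF v) σ
    rw [← Fermat.Agent.ES.Coh.redP_rho] at h1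
    exact KJ.unique hC (hpe _) (hF _) h1
  · intro (v : Lam N p) hv
    have h0 : F v = 0 := congrArg Subtype.val hv
    have h1 := hF v
    rw [h0] at h1
    exact Tors_div p n v (KJ.inj hC (hpe v) h1)
  · have := jt_finite hC N p (Fact.out) n
    exact Set.toFinite _

end Fermat.Agent.FF19.S32

end
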