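/-
TEAM FF19, block S32 [ADD-ON] (architect helper20).  COLLECTOR: frozen S32 from frozen S19, unconditionally.
-/
import Fermat.Agent.FF19.S32.Top
import Fermat.Agent.FF19.S32.Tors
import Fermat.Agent.FF19.S32.Cls
import Fermat.Agent.FF19.S32.Alg
import Fermat.Agent.FF19.Hopf.All
import Fermat.Agent.FF19.Hopf.Prod

set_option autoImplicit false

namespace Fermat.Agent.FF19.S32

variable {p : ℕ} {N : ℕ} [NeZero N] {S : Finset ℕ}
  {𝒪 : Type} [CommRing 𝒪] [IsDomain 𝒪] [IsDiscreteValuationRing 𝒪]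
  [IsAdicComplete (IsLocalRing.maximalIdeal 𝒪) 𝒪]
  {θ : CuspForm.heckeAlgebra N 2 (↑S : Set ℕ) →+* IsLocalRing.ResidueField 𝒪}
  {T : Type} [CommRing T] [IsLocalRing T] [IsNoetherianRing T]
  [IsAdicComplete (IsLocalRing.maximalIdeal T) T] [Algebra 𝒪 T] [IsLocalHom (algebraMap 𝒪 T)]
  [Module.Finite 𝒪 T] [Module.Free 𝒪 T]

/-- `J₀(N)[l^k]` is finite (unconditional). -/
theorem all_jt_finite (N : ℕ) [NeZero N] (l : ℕ) (hl : l.Prime) (k : ℕ) : Finite (Jt N l k) :=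
  jt_finite stmt_Cls N l hl k

/-- (TORS), unconditional. -/
theorem all_ESTors : Stmt_ESTors := stmt_ESTors stmt_Cls

/-- **S32 from S19.** -/
theorem s32_of_s19 (h19 : Stmt_S19) [Finite (IsLocalRing.ResidueField 𝒪)]
    (hp : p.Prime) (hp2 : p ≠ 2) (hp𝒪 : (p : 𝒪) ∈ IsLocalRing.maximalIdeal 𝒪) (hpN : ¬ p ∣ N)
    (hpS : p ∈ S) (hNS : ∀ q : ℕ, q.Prime → q ∣ N → q ∈ S)
    (H : CuspForm.HeckeGaloisRepDatum N (↑S : Set ℕ) 𝒪 θ T) :
    H.ρ.IsFlatAt p :=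
  s32_of h19 Hopf.all_Converse Hopf.all_Sub Hopf.all_Quot Hopf.stmt_Prod Hopf.all_Criterion
    stmt_AlgSubquot all_ESTors (fun N _ l hl k => all_jt_finite N l hl k)
    hp hp2 hp𝒪 hpN hpS hNS H

end Fermat.Agent.FF19.S32
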